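import Fermat.Agent.BunyakovskyFails.Values
import Mathlib.RingTheory.Polynomial.Eisenstein.Criterion

/-!
# Bunyakovsky's conjecture fails over `F_q[t]`

`T ^ (4 p) + t` is irreducible, has no local obstruction and takes only squarefree values, but the
Moebius function is `1` at its values at every nonconstant `g`: only constants give prime values.
-/

set_option autoImplicit false
set_option linter.style.openClassical false
set_option linter.style.haveILetI false
set_option linter.unusedSectionVars false

noncomputable section

open scoped Classical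

namespace FA.BunyakovskyFails

open Polynomial UniqueFactorizationMonoid

variable (k : Type*) [Field k] (p : ℕ)

/-- The polynomial `T ^ (4 p) + t`. -/
def badPoly : Polynomial (Polynomial k) := X ^ (4 * p) + C X

theorem eval_badPoly (g : k[X]) : (badPoly k p).eval g = g ^ (4 * p) + X := by
  simp [badPoly]

variable [Fact p.Prime]

theorem monic_badPoly : (badPoly k p).Monic :=
  monic_X_pow_add_C _ (by have := (Fact.out : p.Prime).pos; omega)

/-- It is irreducible, by Eisenstein at `t`. -/
theorem irreducible_badPoly : Irreducible (badPoly k p) := by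
  have hp : 0 < 4 * p := by have := (Fact.out : p.Prime).pos; omega
  have hdeg : (badPoly k p).degree = ((4 * p : ℕ) : WithBot ℕ) := degree_X_pow_add_C hp _
  refine irreducible_of_eisenstein_criterion (P := Ideal.span {(X : k[X])})
    ((Ideal.span_singleton_prime X_ne_zero).mpr prime_X) ?_ (fun n hn => ?_)
    (by rw [hdeg]; exact_mod_cast hp) ?_ (monic_badPoly k p).isPrimitive
  · rw [(monic_badPoly k p).leadingCoeff, Ideal.mem_span_singleton]
    exact fun h => prime_X.not_isUnit (isUnit_of_dvd_one h)
  · rw [hdeg, Nat.cast_lt] at hn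
    rw [Ideal.mem_span_singleton, badPoly, coeff_add, coeff_X_pow, if_neg hn.ne, zero_add,
      coeff_C]
    split <;> simp
  · rw [Ideal.span_singleton_pow, Ideal.mem_span_singleton, badPoly, coeff_add, coeff_X_pow,
      if_neg hp.ne, zero_add, coeff_C_zero]
    intro h
    have := natDegree_le_of_dvd h X_ne_zero
    simp at this

/-- No irreducible divides all the values. -/
theorem exists_not_dvd_eval {P : k[X]} (hP : Irreducible P) :
    ∃ g, ¬ P ∣ (badPoly k p).eval g := by
  by_contra! h
  have h0 := h 0
  have h1 := h 1
  have hp : 4 * p ≠ 0 := by have := (Fact.out : p.Prime).pos; omega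
  rw [eval_badPoly, zero_pow hp, zero_add] at h0
  rw [eval_badPoly, one_pow, dvd_add_left h0] at h1
  exact hP.not_isUnit (isUnit_of_dvd_one h1)

variable [CharP k p] [Fintype k] {k p}

/-- The values at nonconstant polynomials. -/
theorem mu_eval_badPoly (hk : ringChar k ≠ 2) {g : k[X]} (hg : g.natDegree ≠ 0) :
    mu ((badPoly k p).eval g) = 1 := by
  have hd : (X : k[X]).natDegree < 2 * (2 * p) * g.natDegree := by
    rw [natDegree_X]
    have := (Fact.out : p.Prime).two_le
    calc 1 < 2 * (2 * p) * 1 := by omega
      _ ≤ _ := Nat.mul_le_mul_left _ (Nat.pos_of_ne_zero hg)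
  rw [eval_badPoly, show 4 * p = 2 * (2 * p) by ring,
    mu_value hk (dvd_mul_left p 2) hd, derivative_X, resultant_one_left, natDegree_one,
    mul_assoc 2 p, pow_mul, quadraticChar_sq_one (neg_ne_zero.mpr one_ne_zero)]
  simp

/-- The values at constants are linear. -/
theorem irreducible_eval_C (c : k) : Irreducible ((badPoly k p).eval (C c)) := by
  rw [eval_badPoly, ← C_pow, add_comm]
  exact Monic.irreducible_of_degree_eq_one (degree_X_add_C _) (monic_X_add_C _)

theorem squarefree_eval_badPoly (hk : ringChar k ≠ 2) (g : k[X]) :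
    Squarefree ((badPoly k p).eval g) := by
  rcases eq_or_ne g.natDegree 0 with hg | hg
  · rw [eq_C_of_natDegree_eq_zero hg]
    exact (irreducible_eval_C _).squarefree
  · have h := mu_eval_badPoly (p := p) hk hg
    rw [mu] at h
    by_contra hsq
    rw [if_neg hsq] at h
    exact zero_ne_one h

/-- **Prime values only at constants.** -/
theorem irreducible_eval_iff (hk : ringChar k ≠ 2) (g : k[X]) :
    Irreducible ((badPoly k p).eval g) ↔ ∃ c, g = C c := by
  refine ⟨fun hi => by_contra fun hno => ?_, ?_⟩
  · have hg : g.natDegree ≠ 0 := fun h => hno ⟨_, eq_C_of_natDegree_eq_zero h⟩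
    have h := mu_eval_badPoly (p := p) hk hg
    rw [mu, if_pos (squarefree_eval_badPoly hk g), normalizedFactors_irreducible hi] at h
    norm_num at h
  · rintro ⟨c, rfl⟩
    exact irreducible_eval_C c

theorem finite_prime_values (hk : ringChar k ≠ 2) :
    {g : k[X] | Irreducible ((badPoly k p).eval g)}.Finite :=
  (Set.finite_range C).subset fun g hg => by
    obtain ⟨c, rfl⟩ := (irreducible_eval_iff hk g).mp hg
    exact ⟨c, rfl⟩

/-- The Moebius sum is maximal. -/
theorem sum_mu_eval_badPoly (hk : ringChar k ≠ 2) {d : ℕ} (hd : d ≠ 0) :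
    ∑ᶠ a : SquarefreeFF.Deg k d, mu ((badPoly k p).eval (X ^ d + a.1)) =
      (Fintype.card k : ℤ) ^ d := by
  haveI := Fintype.ofFinite (SquarefreeFF.Deg k d)
  rw [finsum_congr fun a : SquarefreeFF.Deg k d => mu_eval_badPoly (p := p) hk (g := X ^ d + a.1)
      (by rwa [degree_eq_of_deg]), finsum_eq_sum_of_fintype, Finset.sum_const, Finset.card_univ,
    ← Nat.card_eq_fintype_card, SquarefreeFF.natCard_deg]
  simp

end FA.BunyakovskyFails
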