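import Fermat.Agent.PolynomialParity.Roots
import Mathlib.FieldTheory.Finite.Basic
import Mathlib.FieldTheory.IsAlgClosed.AlgebraicClosure
import Mathlib.NumberTheory.LegendreSymbol.QuadraticChar.Basic
import Mathlib.GroupTheory.Perm.Fin
import Mathlib.RingTheory.AdjoinRoot

/-!
# Pellet's parity theorem over a finite field

For a monic polynomial of degree `n` over a finite field of odd characteristic the Moebius value is
`(-1) ^ n` times the quadratic character of the discriminant. The Frobenius moves the roots of an
irreducible cyclically, and the discriminant is multiplicative up to squares.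
-/

set_option autoImplicit false
set_option linter.style.openClassical false
set_option linter.style.haveILetI false

noncomputable section

open scoped Classical

namespace FA.BunyakovskyFails

open Polynomial UniqueFactorizationMonoid

variable {k : Type*} [Field k]

/-- The Moebius function of `k[X]`. -/
def mu (h : k[X]) : ℤ := if Squarefree h then (-1) ^ (normalizedFactors h).card else 0

/-- The discriminant of a monic polynomial: `(-1) ^ (n (n - 1) / 2) Res(h, h')`. -/
def disc (h : k[X]) : k :=
  (-1) ^ (h.natDegree * (h.natDegree - 1) / 2) * resultant h (derivative h)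

/-- A resultant with a monic polynomial, at the roots. -/
theorem map_resultant_monic {K : Type*} [Field K] (φ : k →+* K) {f : k[X]} (hf : f.Monic)
    (hsplit : (f.map φ).Splits) (g : k[X]) :
    φ (resultant f g) = ((f.map φ).roots.map (g.map φ).eval).prod := by
  have h := resultant_eq_prod_eval (f.map φ) (g.map φ) g.natDegree natDegree_map_le hsplit
  rw [(hf.map φ).leadingCoeff, one_pow, one_mul, hf.natDegree_map, resultant_map_map] at h
  exact h

theorem val_finRotate {n : ℕ} (i : Fin n) : ((finRotate n i : Fin n) : ℕ) = ((i : ℕ) + 1) % n := by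
  obtain _ | n := n
  · exact i.elim0
  · rw [finRotate_apply, Fin.val_add, Fin.val_one']
    simp

theorem triangle_add (a b : ℕ) :
    (a + b) * (a + b - 1) / 2 = a * (a - 1) / 2 + b * (b - 1) / 2 + a * b := by
  induction b with
  | zero => simp
  | succ b ih =>
    rw [← add_assoc a b 1, Nat.triangle_succ, Nat.triangle_succ, ih, mul_add, mul_one]
    omega

/-- **The discriminant of a product.** -/
theorem disc_mul {f g : k[X]} (hf : f.Monic) (hg : g.Monic) :
    disc (f * g) = disc f * disc g * resultant f g ^ 2 := by
  set K := AlgebraicClosure k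
  set φ := algebraMap k K
  refine φ.injective ?_
  have hs : ∀ u : k[X], (u.map φ).Splits := fun u => IsAlgClosed.splits _
  have hne : (f.map φ) * (g.map φ) ≠ 0 :=
    mul_ne_zero (hf.map φ).ne_zero (hg.map φ).ne_zero
  have hsymm : ((g.map φ).roots.map (f.map φ).eval).prod =
      (-1) ^ (f.natDegree * g.natDegree) * ((f.map φ).roots.map (g.map φ).eval).prod := by
    rw [← map_resultant_monic φ hf (hs f), ← map_resultant_monic φ hg (hs g), resultant_comm,
      map_mul, map_pow, map_neg, map_one, mul_comm g.natDegree]
  have hfd : ∀ x ∈ (f.map φ).roots, ((derivative (f * g)).map φ).eval x =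
      (f.derivative.map φ).eval x * (g.map φ).eval x := fun x hx => by
    have h0 : (f.map φ).eval x = 0 := (mem_roots (hf.map φ).ne_zero).mp hx
    simp [derivative_mul, h0]
  have hgd : ∀ x ∈ (g.map φ).roots, ((derivative (f * g)).map φ).eval x =
      (g.derivative.map φ).eval x * (f.map φ).eval x := fun x hx => by
    have h0 : (g.map φ).eval x = 0 := (mem_roots (hg.map φ).ne_zero).mp hx
    simp [derivative_mul, h0, mul_comm]
  have hres : φ (resultant (f * g) (derivative (f * g))) =
      φ (resultant f f.derivative) * φ (resultant g g.derivative) *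
        ((-1) ^ (f.natDegree * g.natDegree) * φ (resultant f g) ^ 2) := by
    rw [map_resultant_monic φ (hf.mul hg) (hs _), map_resultant_monic φ hf (hs f),
      map_resultant_monic φ hg (hs g), map_resultant_monic φ hf (hs f)]
    conv_lhs => rw [Polynomial.map_mul, roots_mul hne, Multiset.map_add, Multiset.prod_add,
      Multiset.map_congr rfl hfd, Multiset.map_congr rfl hgd, Multiset.prod_map_mul,
      Multiset.prod_map_mul, hsymm]
    ring
  rw [disc, map_mul, hres, hf.natDegree_mul hg, triangle_add]
  simp only [disc, map_mul, map_pow, map_neg, map_one, pow_add]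
  have h2 : ((-1 : K) ^ (f.natDegree * g.natDegree)) * (-1) ^ (f.natDegree * g.natDegree) = 1 := by
    rw [← mul_pow, neg_one_mul, neg_neg, one_pow]
  linear_combination ((-1 : K) ^ (f.natDegree * (f.natDegree - 1) / 2) *
    (-1) ^ (g.natDegree * (g.natDegree - 1) / 2) * φ (resultant f f.derivative) *
      φ (resultant g g.derivative) * φ (resultant f g) ^ 2) * h2

theorem disc_one : disc (1 : k[X]) = 1 := by simp [disc]

variable [Fintype k]

/-- **The discriminant of an irreducible**: a square exactly in odd degree. -/
theorem quadraticChar_disc_irreducible (hk : ringChar k ≠ 2) {f : k[X]} (hf : f.Monic)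
    (hi : Irreducible f) : quadraticChar k (disc f) = (-1) ^ (f.natDegree + 1) := by
  haveI := Fact.mk hi
  set L := AdjoinRoot f
  set φ := AdjoinRoot.of f
  set n := f.natDegree with hn
  set q := Fintype.card k
  have hfin : Module.finrank k L = n := by
    rw [(AdjoinRoot.powerBasis hi.ne_zero).finrank, AdjoinRoot.powerBasis_dim]
  haveI : Module.Finite k L := Module.finite_of_finrank_pos (hfin ▸ hi.natDegree_pos)
  haveI : Finite L := Module.finite_of_finite k
  haveI := Fintype.ofFinite L
  set θ := AdjoinRoot.root f
  let x : Fin n → L := fun i => θ ^ q ^ (i : ℕ)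
  have hx : ∀ i : Fin n, x i = (FiniteField.frobeniusAlgHom k L ^ (i : ℕ)) θ := fun i => by
    rw [AlgHom.coe_pow, FiniteField.coe_frobeniusAlgHom, pow_iterate]
  have hxinj : Function.Injective x := fun i j e => by
    rw [hx, hx] at e
    exact (finCongr hfin.symm).injective
      ((FiniteField.bijective_frobeniusAlgHom_pow k L).injective (AdjoinRoot.algHom_ext e))
  have hroot : ∀ i, (f.map φ).eval (x i) = 0 := fun i => by
    rw [hx, eval_map, show φ = algebraMap k L from (AdjoinRoot.algebraMap_eq f).symm,
      ← aeval_def, aeval_algHom_apply, AdjoinRoot.aeval_eq, AdjoinRoot.mk_self, map_zero]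
  have hprod : f.map φ = ∏ i, (X - C (x i)) := by
    refine (eq_of_monic_of_dvd_of_natDegree_le (monic_prod_of_monic _ _ fun i _ => monic_X_sub_C _)
      (hf.map φ) (Finset.prod_dvd_of_coprime ((pairwise_coprime_X_sub_C hxinj).set_pairwise _)
        fun i _ => dvd_iff_isRoot.mpr (hroot i)) ?_)
    rw [natDegree_prod_of_monic _ _ fun i _ => monic_X_sub_C _, hf.natDegree_map φ]
    simp [← hn]
  set δ := (Matrix.vandermonde x).det
  have hδ0 : δ ≠ 0 := Matrix.det_vandermonde_ne_zero_iff.mpr hxinj
  have hD : φ (disc f) = δ ^ 2 := by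
    have hsplit : (f.map φ).Splits := hprod ▸ Splits.prod fun i _ => Splits.X_sub_C _
    rw [PolynomialParity.det_vandermonde_sq, ← hprod, disc, map_mul, map_resultant_monic φ hf
      hsplit, map_pow, map_neg, map_one, ← hn, derivative_map, hprod,
      show (∏ i, (X - C (x i))) = ((Finset.univ.val.map x).map fun a => X - C a).prod by
        rw [Multiset.map_map]; rfl, roots_multiset_prod_X_sub_C, Multiset.map_map]
    rfl
  have hfrob : δ ^ q = (-1) ^ (n + 1) * δ := by
    have hrot : ∀ i : Fin n, x i ^ q = x (finRotate n i) := fun i => by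
      obtain ⟨m, hm⟩ : ∃ m, n = m + 1 := ⟨n - 1, by have := hi.natDegree_pos; omega⟩
      simp only [x, ← pow_mul, ← pow_succ]
      rw [val_finRotate i]
      rcases Nat.lt_or_ge ((i : ℕ) + 1) n with h | h
      · rw [Nat.mod_eq_of_lt h]
      · rw [show (i : ℕ) + 1 = n by omega, Nat.mod_self, pow_zero, pow_one, ← hfin,
          ← Module.card_eq_pow_finrank, FiniteField.pow_card]
    rw [show δ ^ q = FiniteField.frobeniusAlgHom k L δ from rfl, AlgHom.map_det,
      show (FiniteField.frobeniusAlgHom k L).mapMatrix (Matrix.vandermonde x) =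
        (Matrix.vandermonde x).submatrix (finRotate n) id from Matrix.ext fun i j => by
          simp only [AlgHom.mapMatrix_apply, Matrix.map_apply, Matrix.vandermonde_apply,
            Matrix.submatrix_apply, id_eq, FiniteField.coe_frobeniusAlgHom]
          rw [← pow_mul, mul_comm, pow_mul, hrot],
      Matrix.det_permute, sign_finRotate]
    push_cast
    have := hi.natDegree_pos
    rw [show n + 1 = n - 1 + 2 by omega, pow_add]
    simp [δ]
  have hd0 : disc f ≠ 0 := fun h => hδ0 (by
    rw [h, map_zero] at hD; exact (pow_eq_zero_iff two_ne_zero).mp hD.symm)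
  have hodd : q % 2 = 1 := FiniteField.odd_card_of_char_ne_two hk
  have hkey : φ ((quadraticChar k (disc f) : ℤ) : k) = φ (((-1) ^ (n + 1) : ℤ) : k) := by
    rw [quadraticChar_eq_pow_of_char_ne_two' hk, map_pow, hD, ← pow_mul]
    push_cast
    rw [map_pow, map_neg, map_one]
    refine mul_right_cancel₀ hδ0 ?_
    rw [← pow_succ, show 2 * (q / 2) + 1 = q by omega, hfrob]
  have hcast := φ.injective hkey
  have h11 : (-1 : k) ≠ 1 := Ring.neg_one_ne_one_of_char_ne_two hk
  rcases quadraticChar_dichotomy hd0 with h | h <;>
    rcases neg_one_pow_eq_or ℤ (n + 1) with h' | h' <;> rw [h, h'] at hcast ⊢ <;>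
    push_cast at hcast
  · exact absurd hcast.symm h11
  · exact absurd hcast h11

/-- The squarefree case, by induction on the factors. -/
theorem quadraticChar_disc_prod (hk : ringChar k ≠ 2) (s : Multiset k[X])
    (hs : ∀ f ∈ s, f.Monic ∧ Irreducible f) (hsq : Squarefree s.prod) :
    quadraticChar k (disc s.prod) = (-1) ^ (s.prod.natDegree + s.card) := by
  induction s using Multiset.induction_on with
  | empty => simp [disc_one]
  | cons f s ih =>
    rw [Multiset.prod_cons] at hsq ⊢
    obtain ⟨hfm, hfi⟩ := hs f (Multiset.mem_cons_self _ _)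
    have hs' : ∀ g ∈ s, g.Monic ∧ Irreducible g := fun g hg => hs g (Multiset.mem_cons_of_mem hg)
    have hsm : s.prod.Monic := by
      simpa using monic_multiset_prod_of_monic s id fun g hg => (hs' g hg).1
    have hcop : IsCoprime f s.prod := hfi.coprime_iff_not_dvd.mpr fun hd =>
      hfi.not_isUnit (hsq f (mul_dvd_mul_left f hd))
    rw [disc_mul hfm hsm, map_mul, map_mul, quadraticChar_sq_one' (resultant_ne_zero _ _ hcop),
      mul_one, quadraticChar_disc_irreducible hk hfm hfi, ih hs' (hsq.of_mul_right),
      hfm.natDegree_mul hsm, Multiset.card_cons, ← pow_add]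
    ring_nf

theorem mu_eq_zero_iff_resultant {h : k[X]} (h0 : h ≠ 0) :
    ¬ Squarefree h ↔ resultant h (derivative h) = 0 := by
  haveI : PerfectField k := PerfectField.ofFinite
  rw [resultant_eq_zero_iff, ← PerfectField.separable_iff_squarefree, separable_def]
  exact ⟨fun hc => ⟨Or.inl h0, hc⟩, fun hc => hc.2⟩

/-- **Pellet's theorem over a finite field**: `μ(h) = (-1) ^ n χ(disc h)`. -/
theorem mu_eq_quadraticChar_disc (hk : ringChar k ≠ 2) {h : k[X]} (hm : h.Monic) :
    mu h = (-1) ^ h.natDegree * quadraticChar k (disc h) := by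
  by_cases hsq : Squarefree h
  · have hprod : (normalizedFactors h).prod = h := by
      rw [prod_normalizedFactors_eq hm.ne_zero, hm.normalize_eq_self]
    have hmem : ∀ f ∈ normalizedFactors h, f.Monic ∧ Irreducible f := fun f hf =>
      ⟨normalize_normalized_factor f hf ▸
        monic_normalize (irreducible_of_normalized_factor f hf).ne_zero,
        irreducible_of_normalized_factor f hf⟩
    have h1 := quadraticChar_disc_prod hk _ hmem (hprod.symm ▸ hsq)
    rw [hprod] at h1
    rw [mu, if_pos hsq, h1, pow_add, ← mul_assoc, ← mul_pow]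
    simp
  · rw [mu, if_neg hsq, disc, (mu_eq_zero_iff_resultant hm.ne_zero).mp hsq, mul_zero,
      MulChar.map_zero, mul_zero]

end FA.BunyakovskyFails
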