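import Fermat.Agent.BunyakovskyFails.Parity
import Fermat.Agent.SquarefreeFFMulti.Local

/-!
# The Moebius function of `g ^ (2 m) + b` in characteristic `p ∣ m`

The derivative of the value is `b'` alone, so by Pellet's theorem the Moebius value is the quadratic
character of the resultant of `b'` with the value: it depends only on `g` modulo `b'` and on the
parity of the degree of `g`.
-/

set_option autoImplicit false
set_option linter.style.openClassical false
set_option linter.style.haveILetI false
set_option linter.unusedSectionVars false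

noncomputable section

open scoped Classical

namespace FA.BunyakovskyFails

open Polynomial UniqueFactorizationMonoid

variable {k : Type*} [Field k] {p m : ℕ} [CharP k p]

theorem derivative_value (hpm : p ∣ m) (g b : k[X]) :
    derivative (g ^ (2 * m) + b) = derivative b := by
  rw [derivative_add, derivative_pow,
    (CharP.cast_eq_zero_iff k p _).mpr (hpm.mul_left 2), map_zero, zero_mul, zero_mul, zero_add]

theorem natDegree_value {g b : k[X]} (hd : b.natDegree < 2 * m * g.natDegree) :
    (g ^ (2 * m) + b).natDegree = 2 * m * g.natDegree := by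
  rw [natDegree_add_eq_left_of_natDegree_lt (by rwa [natDegree_pow]), natDegree_pow]

theorem leadingCoeff_value {g b : k[X]} (hd : b.natDegree < 2 * m * g.natDegree) :
    (g ^ (2 * m) + b).leadingCoeff = g.leadingCoeff ^ (2 * m) := by
  rw [leadingCoeff_add_of_degree_lt', leadingCoeff_pow]
  refine degree_lt_degree ?_
  rwa [natDegree_pow]

theorem mu_C_mul {c : k} (hc : c ≠ 0) (h : k[X]) : mu (C c * h) = mu h := by
  have hass : Associated h (C c * h) := associated_unit_mul_right h _ (isUnit_C.mpr hc.isUnit)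
  have hsq : Squarefree (C c * h) ↔ Squarefree h :=
    ⟨fun H => H.squarefree_of_dvd hass.dvd, fun H => H.squarefree_of_dvd hass.dvd'⟩
  rw [mu, mu]
  by_cases h0 : Squarefree h
  · rw [if_pos h0, if_pos (hsq.mpr h0), (associated_iff_normalizedFactors_eq_normalizedFactors
      h0.ne_zero (hsq.mpr h0).ne_zero).mp hass]
  · rw [if_neg h0, if_neg (mt hsq.mp h0)]

variable [Fintype k]

/-- A square factor does not affect the character. -/
theorem quadraticChar_sq_mul {c : k} (hc : c ≠ 0) (a : k) :
    quadraticChar k (c ^ 2 * a) = quadraticChar k a := by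
  rw [map_mul, quadraticChar_sq_one' hc, one_mul]

theorem quadraticChar_even_pow_mul {c : k} (hc : c ≠ 0) (j : ℕ) (a : k) :
    quadraticChar k (c ^ (2 * j) * a) = quadraticChar k a := by
  rw [show c ^ (2 * j) = (c ^ j) ^ 2 by ring, quadraticChar_sq_mul (pow_ne_zero _ hc)]

theorem quadraticChar_neg_one_triangle (N : ℕ) :
    quadraticChar k ((-1) ^ (2 * N * (2 * N - 1) / 2)) = quadraticChar k (-1) ^ N := by
  have hu : IsUnit (quadraticChar k (-1)) := by
    rcases quadraticChar_dichotomy (neg_ne_zero.mpr (one_ne_zero (α := k))) with h | h <;> simp [h]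
  rcases Nat.eq_zero_or_pos N with rfl | hN
  · simp
  rw [map_pow, mul_assoc, Nat.mul_div_cancel_left _ two_pos,
    show N * (2 * N - 1) = N + 2 * (N * (N - 1)) by
      obtain ⟨j, rfl⟩ : ∃ j, N = j + 1 := ⟨N - 1, by omega⟩
      simp only [Nat.add_sub_cancel, show 2 * (j + 1) - 1 = 2 * j + 1 by omega]
      ring,
    pow_add, pow_mul, quadraticChar_sq_one (neg_ne_zero.mpr one_ne_zero), one_pow, mul_one]

/-- **The Moebius function of the values.** -/
theorem mu_value (hk : ringChar k ≠ 2) (hpm : p ∣ m) {g b : k[X]}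
    (hd : b.natDegree < 2 * m * g.natDegree) :
    mu (g ^ (2 * m) + b) = quadraticChar k (-1) ^ (m * g.natDegree) *
      quadraticChar k (resultant (derivative b) (g ^ (2 * m) + b)) := by
  set h := g ^ (2 * m) + b with hh
  set N := m * g.natDegree
  have hg0 : g ≠ 0 := fun e => by simp [e] at hd
  have hn : h.natDegree = 2 * N := by rw [hh, natDegree_value hd, mul_assoc]
  have hc : h.leadingCoeff = g.leadingCoeff ^ (2 * m) := leadingCoeff_value hd
  set c := h.leadingCoeff
  have hc0 : c ≠ 0 := hc ▸ pow_ne_zero _ (leadingCoeff_ne_zero.mpr hg0)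
  set h1 := C c⁻¹ * h with hh1
  have hm1 : h1.Monic := by
    rw [hh1, Monic, leadingCoeff_mul, leadingCoeff_C, inv_mul_cancel₀ hc0]
  have hn1 : h1.natDegree = 2 * N := by rw [hh1, natDegree_C_mul (inv_ne_zero hc0), hn]
  have hder : derivative h1 = C c⁻¹ * derivative b := by
    rw [hh1, derivative_C_mul, hh, derivative_value hpm]
  rw [← mu_C_mul (inv_ne_zero hc0) h, ← hh1, mu_eq_quadraticChar_disc hk hm1, disc, hn1, hder,
    natDegree_C_mul (inv_ne_zero hc0), resultant_C_mul_right, resultant_comm, hh1,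
    resultant_C_mul_right, map_mul, quadraticChar_neg_one_triangle, hn,
    quadraticChar_even_pow_mul (inv_ne_zero hc0), Even.neg_one_pow ⟨N, two_mul N⟩, one_mul,
    Even.neg_one_pow (Even.mul_right ⟨N, two_mul N⟩ _), one_mul, map_mul, map_pow]
  have hsq : quadraticChar k c⁻¹ = 1 := by
    rw [hc, ← inv_pow, show (g.leadingCoeff⁻¹) ^ (2 * m) = (g.leadingCoeff⁻¹ ^ m) ^ 2 by ring,
      quadraticChar_sq_one' (pow_ne_zero _ (inv_ne_zero (leadingCoeff_ne_zero.mpr hg0)))]
  rw [hsq, one_pow, one_mul]

/-- The periodic part: the character of the monic `w`'s resultant with the value at `r`. -/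
def phi (m : ℕ) (b r : k[X]) : ℤ :=
  quadraticChar k (resultant (C (derivative b).leadingCoeff⁻¹ * derivative b) (r ^ (2 * m) + b))

theorem resultant_congr {w u v : k[X]} (hw : w.Monic) (huv : w ∣ u - v) :
    resultant w u = resultant w v := by
  set K := AlgebraicClosure k
  refine (algebraMap k K).injective ?_
  rw [map_resultant_monic _ hw (IsAlgClosed.splits _),
    map_resultant_monic _ hw (IsAlgClosed.splits _)]
  refine congrArg _ (Multiset.map_congr rfl fun x hx => ?_)
  obtain ⟨z, hz⟩ := huv
  rw [show u = v + w * z by rw [← hz]; ring, Polynomial.map_add, Polynomial.map_mul, eval_add,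
    eval_mul, (mem_roots (hw.map _).ne_zero).mp hx, zero_mul, add_zero]

theorem monic_normalised {b : k[X]} (hb : derivative b ≠ 0) :
    (C (derivative b).leadingCoeff⁻¹ * derivative b).Monic := by
  rw [Monic, leadingCoeff_mul, leadingCoeff_C, inv_mul_cancel₀ (leadingCoeff_ne_zero.mpr hb)]

/-- **Periodicity.** -/
theorem mu_value_eq_phi (hk : ringChar k ≠ 2) (hpm : p ∣ m) {g b r : k[X]}
    (hb : derivative b ≠ 0) (hd : b.natDegree < 2 * m * g.natDegree)
    (hr : derivative b ∣ g - r) :
    mu (g ^ (2 * m) + b) = quadraticChar k (-1) ^ (m * g.natDegree) * phi m b r := by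
  have hl := leadingCoeff_ne_zero.mpr hb
  have hdvd : C (derivative b).leadingCoeff⁻¹ * derivative b ∣
      (g ^ (2 * m) + b) - (r ^ (2 * m) + b) := by
    rw [add_sub_add_right_eq_sub]
    exact ((isUnit_C.mpr (inv_ne_zero hl).isUnit).mul_left_dvd.mpr hr).trans
      (sub_dvd_pow_sub_pow _ _ _)
  rw [mu_value hk hpm hd, phi, ← resultant_congr (monic_normalised hb) hdvd,
    natDegree_C_mul (inv_ne_zero hl), resultant_C_mul_left, natDegree_value hd, mul_assoc 2 m,
    quadraticChar_even_pow_mul (inv_ne_zero hl)]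

theorem degree_eq_of_deg {d : ℕ} (a : SquarefreeFF.Deg k d) :
    (X ^ d + a.1).natDegree = d := by
  refine natDegree_eq_of_degree_eq_some ?_
  rw [degree_add_eq_left_of_degree_lt, degree_X_pow]
  rw [degree_X_pow]
  exact mem_degreeLT.mp a.2

/-- **The exact sum** over the monic `g` of degree `d`. -/
theorem sum_mu_value (hk : ringChar k ≠ 2) (hpm : p ∣ m) {b : k[X]} (hb : derivative b ≠ 0)
    {d : ℕ} (hd : b.natDegree < 2 * m * d) (he : (derivative b).natDegree ≤ d) :
    ∑ᶠ a : SquarefreeFF.Deg k d, mu ((X ^ d + a.1) ^ (2 * m) + b) =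
      (Fintype.card k : ℤ) ^ (d - (derivative b).natDegree) *
        (quadraticChar k (-1) ^ (m * d) *
          ∑ᶠ r : SquarefreeFF.Deg k (derivative b).natDegree, phi m b r.1) := by
  set l := (derivative b).leadingCoeff
  set w := C l⁻¹ * derivative b with hw
  set e := (derivative b).natDegree
  have hwm : w.Monic := monic_normalised hb
  have hwn : w.natDegree = e := natDegree_C_mul (inv_ne_zero (leadingCoeff_ne_zero.mpr hb))
  have hdvd : derivative b ∣ w := dvd_mul_left _ _
  obtain ⟨i, hi⟩ := Nat.exists_eq_add_of_le (hwn.le.trans he)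
  obtain ⟨E, hE⟩ := SquarefreeFFMulti.exists_modEquiv hwm hi
  have hs : (X ^ d : k[X]) %ₘ w ∈ degreeLT k w.natDegree := by
    rw [mem_degreeLT, ← degree_eq_natDegree hwm.ne_zero]
    exact degree_modByMonic_lt _ hwm
  haveI := Fintype.ofFinite (SquarefreeFF.Deg k d)
  haveI := Fintype.ofFinite (SquarefreeFF.Deg k w.natDegree)
  haveI := Fintype.ofFinite (SquarefreeFF.Deg k i)
  have hval : ∀ a : SquarefreeFF.Deg k d, mu ((X ^ d + a.1) ^ (2 * m) + b) =
      quadraticChar k (-1) ^ (m * d) * phi m b ((⟨_, hs⟩ + (E a).1 :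
        SquarefreeFF.Deg k w.natDegree)).1 := fun a => by
    have h := mu_value_eq_phi hk hpm (g := X ^ d + a.1) (r := X ^ d %ₘ w + (E a).1.1) hb
      (by rwa [degree_eq_of_deg]) (hdvd.trans ⟨X ^ d /ₘ w + (E a).2.1, by
        rw [hE a]
        linear_combination (modByMonic_add_div (X ^ d : k[X]) w).symm⟩)
    rwa [degree_eq_of_deg] at h
  rw [finsum_congr hval, finsum_eq_sum_of_fintype, ← Finset.mul_sum,
    ← E.symm.sum_comp (fun a => phi m b ((⟨_, hs⟩ + (E a).1 :
        SquarefreeFF.Deg k w.natDegree)).1), Fintype.sum_prod_type]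
  simp only [Equiv.apply_symm_apply, Finset.sum_const, Finset.card_univ, nsmul_eq_mul,
    ← Finset.mul_sum]
  have hshift : ∑ r : SquarefreeFF.Deg k w.natDegree, phi m b ((⟨_, hs⟩ + r :
      SquarefreeFF.Deg k w.natDegree)).1 = ∑ᶠ r : SquarefreeFF.Deg k e, phi m b r.1 := by
    rw [← hwn, finsum_eq_sum_of_fintype]
    exact Equiv.sum_comp (Equiv.addLeft (⟨_, hs⟩ : SquarefreeFF.Deg k w.natDegree))
      fun r : SquarefreeFF.Deg k w.natDegree => phi m b r.1
  have hexp : i = d - e := by omega
  rw [hshift, ← Nat.card_eq_fintype_card, SquarefreeFF.natCard_deg, hexp]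
  push_cast
  ring

end FA.BunyakovskyFails
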